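/-
S41 (level raising), TOP-LEVEL GLUE: the frozen statement from the two remaining [PD] inputs
`ThetaAt M` (Shapiro isomorphism with the dessin model) and `BridgeAt M` (dessin pairing =
intrinsic cusp pairing), for all levels `M`.

All other blocks are plugged here:
* `DegData`   := `AsmInstFinal.degData N q' hq'N`        (block (A): Defs, (R1), (R2), (U2));
* `PDData`    := `PD.Package.pdData hΘ hB …`             (block [PD]);
* `IharaInput` := `IH.iharaInput` + `CSP.Base.ker_trivial_of_liftData`   (blocks [IH1], [IH2], [IH2-F]);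
* `NotEisenstein` := `NE.Shape.notEisenstein`           (block (NE));
* the algebra/assembly core `P3LR.Assembly.s41_of_data`.
-/
import Fermat.Statements.S41
import Fermat.Agent.P3LR.Assembly
import Fermat.Agent.P3LR.AsmInstFinal
import Fermat.Agent.S41.PD.Package
import Fermat.Agent.S41.IH.Final
import Fermat.Agent.S41.CSP.Base
import Fermat.Agent.S41.NE.Shape

set_option autoImplicit false
open WeierstrassCurve WeierstrassCurve.Affine WeierstrassCurve.Affine.Point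
open scoped CongruenceSubgroup
open WeierstrassCurve

namespace Fermat.Agent.S41.Top

open Fermat.Agent.P3LR.AsmDefs Fermat.Agent.P3LR.AsmInst Fermat.Agent.P3LR.AsmInstFinal
open Fermat.Agent.N4F.Tors.HeckeHom

/-- **Ihara's lemma in the interface shape**, hypothesis-free. -/
theorem iharaInput_degData {N q p : ℕ} [Fact q.Prime] [NeZero N] (hp : p.Prime) (hp2 : p ≠ 2)
    (hqN : ¬ q ∣ N) (hpq : p ≠ q) : IharaInput p (degData N q hqN) := by
  have : Fact p.Prime := ⟨hp⟩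
  intro x₁ x₂ h₁ h₂ h
  exact Fermat.Agent.S41.IH.iharaInput hqN hpq hp2
    (fun D _ L => Fermat.Agent.S41.CSP.Base.ker_trivial_of_liftData hp hp2 L) ⟨x₁, h₁⟩ ⟨x₂, h₂⟩ h

/-- **S41 from the two remaining [PD] inputs.** -/
theorem s41_of_theta_bridge
    (hΘ : ∀ (M : ℕ) [NeZero M], Fermat.Agent.S41.PD.Package.ThetaAt M)
    (hB : ∀ (M : ℕ) [NeZero M], Fermat.Agent.S41.PD.Package.BridgeAt M)
    (E : WeierstrassCurve ℚ) [E.IsElliptic] {W : WeierstrassCurve ℤ} (hW : W.IsIntegralModelOf E)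
    {p N q' : ℕ} (hp : p.Prime) (hp2 : p ≠ 2) (hN : 0 < N) (hq' : q'.Prime) (hq'N : ¬ q' ∣ N) (hq'p : q' ≠ p)
    (hirr : GaloisRepIsIrreducible (K := AlgebraicClosure ℚ) ℚ E p)
    (f : CuspForm (CongruenceSubgroup.Gamma0 N) 2) (𝔪 : Ideal (integralClosure ℤ ℂ))
    (hf : f.IsNormalizedEigenform) (hmax : 𝔪.IsMaximal) (hpm : (p : integralClosure ℤ ℂ) ∈ 𝔪)
    (hcong : ∀ ℓ : ℕ, ℓ.Prime → W.IsGoodPrimeFor ℓ → ¬ ℓ ∣ N → ℓ ≠ p →
      ∃ a : integralClosure ℤ ℂ, (a : ℂ) = ModularFormClass.qCoeff f ℓ ∧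
        a - ((W.apOfModel ℓ : ℤ) : integralClosure ℤ ℂ) ∈ 𝔪)
    (hLR : ∃ a : integralClosure ℤ ℂ, (a : ℂ) = ModularFormClass.qCoeff f q' ∧
      a ^ 2 - ((q' : integralClosure ℤ ℂ) + 1) ^ 2 ∈ 𝔪) :
    ∃ (g : CuspForm (CongruenceSubgroup.Gamma0 (N * q')) 2) (𝔪' : Ideal (integralClosure ℤ ℂ)),
      g.IsNormalizedEigenform ∧ 𝔪'.IsMaximal ∧ (p : integralClosure ℤ ℂ) ∈ 𝔪' ∧
      (∀ ℓ : ℕ, ℓ.Prime → W.IsGoodPrimeFor ℓ → ¬ ℓ ∣ N * q' → ℓ ≠ p →
        ∃ a : integralClosure ℤ ℂ, (a : ℂ) = ModularFormClass.qCoeff g ℓ ∧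
          a - ((W.apOfModel ℓ : ℤ) : integralClosure ℤ ℂ) ∈ 𝔪') ∧
      g.IsNewAt q' := by
  have : Fact q'.Prime := ⟨hq'⟩
  have : NeZero N := ⟨hN.ne'⟩
  exact Fermat.Agent.P3LR.Assembly.s41_of_data hp hN (degData N q' hq'N)
    (Fermat.Agent.S41.PD.Package.pdData hΘ hB p hp.ne_zero hq'N (r1Hyp N q' hq'N)
      (r2Hyp N q' hq'N))
    (iharaInput_degData hp hp2 hq'N hq'p.symm)
    (Fermat.Agent.S41.NE.Shape.notEisenstein E hW hp hp2 hirr)
    f 𝔪 hf hmax hpm hcong hLR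

end Fermat.Agent.S41.Top
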